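import Mathlib
import Fermat.Agent.S29.H332.WeightedEis

/-!
# S48 / P1 (helper288): Eisenstein series with character

For a Dirichlet character `χ` mod `N` and `k ≥ 3` we consider
`eisChar χ k z = ∑_{(c,d) ∈ ℤ²} χ(c) (c z + d)^{-k}`.

* `eisChar_slash` : `eisChar χ k ∣[k] γ = χ(γ₁₁) • eisChar χ k` for `γ ∈ Γ₀(N)`;
* `eisCharMF` : it is a modular form on `Γ₁(N)`;
* `eisChar_eq_tsum` : for `χ(-1) = (-1)^k = -1`,
  `eisChar χ k z = 2 (-2πi)^k/(k-1)! ∑_{n ≥ 1} (∑_{d ∣ n} χ(d) (n/d)^{k-1}) q^n`.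

Built on the landed `Fermat.Agent.S29.H332.WeightedEis` (weighted Eisenstein sums).
-/

set_option autoImplicit false

open UpperHalfPlane ModularForm MatrixGroups CongruenceSubgroup EisensteinSeries Matrix
open scoped Real Manifold
open Complex Nat

noncomputable section

namespace Fermat.Agent.S48.H288

open Fermat.Agent.S29.H332

variable {N : ℕ}

/-- The weight function `v ↦ χ(v₀)` on `ℤ²`. -/
def chiWeight (χ : DirichletCharacter ℂ N) (v : Fin 2 → ℤ) : ℂ := χ ((v 0 : ℤ) : ZMod N)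

theorem norm_chiWeight_le (χ : DirichletCharacter ℂ N) (v : Fin 2 → ℤ) : ‖chiWeight χ v‖ ≤ 1 :=
  χ.norm_le_one _

/-- The Eisenstein series `∑ χ(c) (cz+d)^{-k}`. -/
def eisChar (χ : DirichletCharacter ℂ N) (k : ℤ) : ℍ → ℂ := wEis (chiWeight χ) k

theorem chiWeight_vecMul_inv (χ : DirichletCharacter ℂ N) (γ : SL(2, ℤ)) (hγ : γ ∈ Gamma0 N)
    (v : Fin 2 → ℤ) :
    chiWeight χ (v ᵥ* (γ⁻¹).1) = χ ((γ 1 1 : ℤ) : ZMod N) * chiWeight χ v := by
  unfold chiWeight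
  have h : ((γ 1 0 : ℤ) : ZMod N) = 0 := Gamma0_mem.mp hγ
  have h2 : (v ᵥ* (γ⁻¹).1) 0 = v 0 * γ 1 1 - v 1 * γ 1 0 := by
    rw [Matrix.SpecialLinearGroup.coe_inv, Matrix.adjugate_fin_two]
    simp [Matrix.vecMul, dotProduct, Fin.sum_univ_two]
    ring
  rw [h2]
  push_cast
  rw [h, mul_zero, sub_zero, map_mul, mul_comm]

/-- Transformation law under `Γ₀(N)`. -/
theorem eisChar_slash (χ : DirichletCharacter ℂ N) (k : ℤ) (γ : SL(2, ℤ)) (hγ : γ ∈ Gamma0 N) :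
    eisChar χ k ∣[k] γ = χ ((γ 1 1 : ℤ) : ZMod N) • eisChar χ k := by
  unfold eisChar
  rw [wEis_slash]
  ext z
  simp only [wEis, Pi.smul_apply, smul_eq_mul]
  rw [← tsum_mul_left]
  congr 1
  funext v
  rw [chiWeight_vecMul_inv χ γ hγ]
  ring

theorem eisChar_slash_Gamma1 (χ : DirichletCharacter ℂ N) (k : ℤ) (γ : SL(2, ℤ))
    (hγ : γ ∈ Gamma1 N) : eisChar χ k ∣[k] γ = eisChar χ k := by
  rw [eisChar_slash χ k γ (Gamma1_in_Gamma0 N hγ)]
  have := ((Gamma1_mem N γ).mp hγ).2.1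
  rw [this, map_one, one_smul]

/-! ### The `q`-expansion -/

section qexp


theorem summable_weight_prod_mul_pow (w : ℕ → ℂ) (hw : ∀ n, ‖w n‖ ≤ 1) (k : ℕ) {r : ℂ}
    (hr : ‖r‖ < 1) :
    Summable fun c : ℕ+ × ℕ+ ↦ w c.1 * ((c.2 : ℂ) ^ k * r ^ (c.1 * c.2 : ℕ)) := by
  have h := (summable_prod_mul_pow (𝕜 := ℂ) k hr).norm
  refine Summable.of_norm_bounded h fun c ↦ ?_
  rw [norm_mul]
  exact mul_le_of_le_one_left (norm_nonneg _) (hw _)

theorem tsum_prod_weight_pow (w : ℕ → ℂ) (hw : ∀ n, ‖w n‖ ≤ 1) (k : ℕ) {r : ℂ} (hr : ‖r‖ < 1) :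
    ∑' d : ℕ+, ∑' c : ℕ+, w d * ((c : ℂ) ^ k * r ^ (d * c : ℕ)) =
      ∑' e : ℕ+, (∑ d ∈ (e : ℕ).divisors, w d * ((e / d : ℕ) : ℂ) ^ k) * r ^ (e : ℕ) := by
  have hS := summable_weight_prod_mul_pow w hw k hr
  rw [← hS.tsum_prod]
  have hS' : Summable fun c : (n : ℕ+) × {x // x ∈ (n : ℕ).divisorsAntidiagonal} ↦
      w c.2.1.1 * ((c.2.1.2 : ℂ) ^ k * r ^ (c.2.1.1 * c.2.1.2)) := by
    have := sigmaAntidiagonalEquivProd.summable_iff.mpr hS
    refine this.congr fun c ↦ ?_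
    simp [sigmaAntidiagonalEquivProd, divisorsAntidiagonalFactors]
  rw [← sigmaAntidiagonalEquivProd.tsum_eq]
  simp only [sigmaAntidiagonalEquivProd, divisorsAntidiagonalFactors, PNat.mk_coe, Equiv.coe_fn_mk]
  rw [Summable.tsum_sigma hS']
  refine tsum_congr fun n ↦ ?_
  rw [tsum_fintype, Finset.sum_mul, Finset.univ_eq_attach,
    (n : ℕ).divisorsAntidiagonal.sum_attach
      fun x : ℕ × ℕ ↦ w x.1 * ((x.2 : ℂ) ^ k * r ^ (x.1 * x.2)),
    Nat.sum_divisorsAntidiagonal fun x y ↦ w x * ((y : ℂ) ^ k * r ^ (x * y))]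
  refine Finset.sum_congr rfl fun i hi ↦ ?_
  rw [Nat.mul_div_cancel' (dvd_of_mem_divisors hi)]
  ring



theorem chi_zero_of_odd (χ : DirichletCharacter ℂ N) (hχ : χ (-1) = -1) : χ 0 = 0 := by
  by_contra h
  have hu : IsUnit (0 : ZMod N) := by
    by_contra hu
    exact h (χ.map_nonunit hu)
  have h1 : (-1 : ZMod N) = 1 := by
    have : Subsingleton (ZMod N) := by
      obtain ⟨u, hu⟩ := hu
      have h01 : (0 : ZMod N) = 1 := by
        have := u.mul_inv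
        rw [hu, zero_mul] at this
        exact this
      exact subsingleton_of_zero_eq_one h01
    exact Subsingleton.elim _ _
  rw [h1, map_one] at hχ
  norm_num at hχ

theorem summable_chi_eisSummand_prod (χ : DirichletCharacter ℂ N) {k : ℕ} (hk : 3 ≤ k) (z : ℍ) :
    Summable fun x : ℤ × ℤ ↦ χ ((x.1 : ℤ) : ZMod N) * eisSummand k ![x.1, x.2] z := by
  have h := summable_wEis (norm_chiWeight_le χ) (k := (k : ℤ)) (by exact_mod_cast hk) z
  refine (finTwoArrowEquiv ℤ).summable_iff.mp <| h.congr (fun v ↦ ?_)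
  simp [chiWeight, show ![v 0, v 1] = v from List.ofFn_inj.mp rfl]

theorem eisChar_eq_tsum_prod (χ : DirichletCharacter ℂ N) {k : ℕ} (hk : 3 ≤ k) (z : ℍ) :
    eisChar χ k z = ∑' c : ℤ, ∑' d : ℤ, χ ((c : ℤ) : ZMod N) * eisSummand k ![c, d] z := by
  unfold eisChar wEis chiWeight
  rw [← (finTwoArrowEquiv ℤ).symm.tsum_eq, finTwoArrowEquiv_symm_apply,
    Summable.tsum_prod (by simpa using summable_chi_eisSummand_prod χ hk z)]
  simp



/-- the inner sum -/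
def innerSum (χ : DirichletCharacter ℂ N) (k : ℕ) (z : ℍ) (c : ℤ) : ℂ :=
  ∑' d : ℤ, χ ((c : ℤ) : ZMod N) * eisSummand k ![c, d] z

theorem innerSum_even (χ : DirichletCharacter ℂ N) (hχ : χ (-1) = -1) {k : ℕ} (hodd : Odd k)
    (z : ℍ) : Function.Even (innerSum χ k z) := by
  intro c
  unfold innerSum
  rw [← tsum_comp_neg]
  refine tsum_congr fun d ↦ ?_
  have h1 : χ ((((-c : ℤ)) : ℤ) : ZMod N) = - χ ((c : ℤ) : ZMod N) := by
    rw [Int.cast_neg, ← neg_one_mul, map_mul, hχ, neg_one_mul]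
  have h2 : eisSummand k ![-c, -d] z = - eisSummand k ![c, d] z := by
    simp only [eisSummand, Matrix.cons_val_zero, Matrix.cons_val_one, Int.cast_neg]
    rw [show (-(c : ℂ) * (z : ℂ) + -(d : ℂ)) = -((c : ℂ) * z + d) by ring]
    rw [_root_.zpow_neg, _root_.zpow_neg, zpow_natCast, zpow_natCast, hodd.neg_pow, inv_neg]
  rw [h1, h2]
  ring

theorem innerSum_zero (χ : DirichletCharacter ℂ N) (hχ : χ (-1) = -1) (k : ℕ) (z : ℍ) :
    innerSum χ k z 0 = 0 := by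
  unfold innerSum
  simp [chi_zero_of_odd χ hχ]

theorem innerSum_pnat (χ : DirichletCharacter ℂ N) {k : ℕ} (hk : 3 ≤ k) (z : ℍ) (c : ℕ+) :
    innerSum χ k z (c : ℕ) = ((-2 * π * Complex.I) ^ k / (k - 1)!) *
      ∑' n : ℕ+, χ ((c : ℕ) : ZMod N) * ((n : ℂ) ^ (k - 1) * cexp (2 * π * Complex.I * z) ^ (c * n : ℕ)) := by
  unfold innerSum
  have H := qExpansion_identity_pnat (k := k - 1) (by omega) ⟨c * z, by simpa using z.2⟩
  simp_rw [show k - 1 + 1 = k by omega, one_div] at H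
  rw [tsum_mul_left, tsum_mul_left]
  have h3 : ∑' d : ℤ, eisSummand k ![((c : ℕ) : ℤ), d] z =
      ∑' d : ℤ, (((c : ℂ) * (z : ℂ)) + d)⁻¹ ^ k := by
    refine tsum_congr fun d ↦ ?_
    simp [eisSummand]
  rw [h3]
  simp only [inv_pow]
  rw [H]
  have h4 : ∀ n : ℕ+, cexp (2 * π * Complex.I * (c * z)) ^ (n : ℕ) = cexp (2 * π * Complex.I * z) ^ (c * n : ℕ) := by
    intro n
    rw [← Complex.exp_nat_mul, ← Complex.exp_nat_mul]
    congr 1
    push_cast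
    ring
  simp_rw [h4]
  simp
  ring


/-- The `q`-expansion of `eisChar` as a convergent series. -/
theorem eisChar_eq_tsum (χ : DirichletCharacter ℂ N) (hχ : χ (-1) = -1) {k : ℕ} (hk : 3 ≤ k)
    (hodd : Odd k) (z : ℍ) :
    eisChar χ k z = 2 * ((-2 * π * Complex.I) ^ k / (k - 1)!) *
      ∑' n : ℕ+, (∑ d ∈ (n : ℕ).divisors, χ ((d : ℕ) : ZMod N) * ((n / d : ℕ) : ℂ) ^ (k - 1)) *
        cexp (2 * π * Complex.I * z) ^ (n : ℕ) := by
  rw [eisChar_eq_tsum_prod χ hk z]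
  have hsum : Summable (innerSum χ k z) := (summable_chi_eisSummand_prod χ hk z).prod
  have h1 := tsum_int_eq_zero_add_two_mul_tsum_pnat (innerSum_even χ hχ hodd z) hsum
  unfold innerSum at h1
  rw [h1]
  have h0 := innerSum_zero χ hχ k z
  unfold innerSum at h0
  rw [h0, zero_add]
  have h2 : ∀ c : ℕ+, ∑' d : ℤ, χ ((((c : ℕ) : ℤ)) : ZMod N) * eisSummand k ![((c : ℕ) : ℤ), d] z =
      ((-2 * π * Complex.I) ^ k / (k - 1)!) *
      ∑' n : ℕ+, χ ((c : ℕ) : ZMod N) *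
        ((n : ℂ) ^ (k - 1) * cexp (2 * π * Complex.I * z) ^ (c * n : ℕ)) := fun c ↦
    innerSum_pnat χ hk z c
  simp_rw [h2]
  rw [tsum_mul_left, tsum_prod_weight_pow (fun d ↦ χ ((d : ℕ) : ZMod N)) (fun d ↦ χ.norm_le_one _)
    (k - 1) (norm_exp_two_pi_I_lt_one z)]
  rw [nsmul_eq_mul]
  push_cast
  ring




theorem one_mem_strictPeriods_Gamma1 (N : ℕ) :
    (1 : ℝ) ∈ ((Gamma1 N).map (Matrix.SpecialLinearGroup.mapGL ℝ)).strictPeriods := by
  simp

/-- The twisted divisor sum `∑_{d ∣ n} χ(d) (n/d)^k`. -/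
def sigmaChi (χ : DirichletCharacter ℂ N) (k : ℕ) (n : ℕ) : ℂ :=
  ∑ d ∈ n.divisors, χ ((d : ℕ) : ZMod N) * ((n / d : ℕ) : ℂ) ^ k

@[simp] theorem sigmaChi_zero (χ : DirichletCharacter ℂ N) (k : ℕ) : sigmaChi χ k 0 = 0 := by
  simp [sigmaChi]

@[simp] theorem sigmaChi_one (χ : DirichletCharacter ℂ N) (k : ℕ) : sigmaChi χ k 1 = 1 := by
  simp [sigmaChi]

theorem norm_sigmaChi_le (χ : DirichletCharacter ℂ N) (k : ℕ) (n : ℕ) :
    ‖sigmaChi χ k n‖ ≤ (n : ℝ) ^ (k + 1) := by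
  unfold sigmaChi
  refine (norm_sum_le _ _).trans ?_
  have h1 : ∀ d ∈ n.divisors, ‖χ ((d : ℕ) : ZMod N) * ((n / d : ℕ) : ℂ) ^ k‖ ≤ (n : ℝ) ^ k := by
    intro d hd
    rw [norm_mul, norm_pow, Complex.norm_natCast]
    calc ‖χ ((d : ℕ) : ZMod N)‖ * ((n / d : ℕ) : ℝ) ^ k ≤ 1 * (n : ℝ) ^ k := by
          gcongr
          · exact χ.norm_le_one _
          · exact_mod_cast Nat.div_le_self n d
      _ = (n : ℝ) ^ k := one_mul _
  refine (Finset.sum_le_sum h1).trans ?_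
  rw [Finset.sum_const, nsmul_eq_mul, pow_succ, mul_comm]
  gcongr
  exact_mod_cast Nat.card_divisors_le_self n

theorem summable_sigmaChi_mul_pow (χ : DirichletCharacter ℂ N) (k : ℕ) {r : ℂ} (hr : ‖r‖ < 1) :
    Summable fun n : ℕ ↦ sigmaChi χ k n * r ^ n := by
  apply Summable.of_norm_bounded
    (summable_norm_pow_mul_geometric_of_norm_lt_one (k + 1) hr)
  intro n
  simp only [norm_mul, Complex.norm_natCast, norm_pow]
  gcongr
  exact norm_sigmaChi_le χ k n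


variable [NeZero N]

/-- `eisChar χ k` as a modular form on `Γ₁(N)`. -/
def eisCharMF (χ : DirichletCharacter ℂ N) {k : ℤ} (hk : 3 ≤ k) :
    ModularForm ((Gamma1 N).map (Matrix.SpecialLinearGroup.mapGL ℝ)) k where
  toFun := eisChar χ k
  slash_action_eq' := by
    rintro _ ⟨γ, hγ, rfl⟩
    exact eisChar_slash_Gamma1 χ k γ hγ
  holo' := wEis_mdifferentiable (norm_chiWeight_le χ) hk
  bdd_at_cusps' {c} hc := by
    rw [Subgroup.IsArithmetic.isCusp_iff_isCusp_SL2Z] at hc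
    rw [OnePoint.isBoundedAt_iff_forall_SL2Z hc]
    exact fun γ _ ↦ wEis_slash_isBoundedAtImInfty (norm_chiWeight_le χ) hk γ

@[simp] theorem coe_eisCharMF (χ : DirichletCharacter ℂ N) {k : ℤ} (hk : 3 ≤ k) :
    ⇑(eisCharMF χ hk) = eisChar χ k := rfl

/-- The normalised Eisenstein series with character `χ`, with `q`-expansion
`∑_{n ≥ 1} (∑_{d ∣ n} χ(d) (n/d)^{k-1}) q^n`. -/
def eisCharNorm (χ : DirichletCharacter ℂ N) {k : ℕ} (hk : 3 ≤ k) :
    ModularForm ((Gamma1 N).map (Matrix.SpecialLinearGroup.mapGL ℝ)) k :=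
  (2 * ((-2 * π * Complex.I) ^ k / (k - 1)!))⁻¹ • eisCharMF χ (k := (k : ℤ)) (by exact_mod_cast hk)

theorem eisCharNorm_apply (χ : DirichletCharacter ℂ N) {k : ℕ} (hk : 3 ≤ k) (z : ℍ) :
    eisCharNorm χ hk z = (2 * ((-2 * π * Complex.I) ^ k / (k - 1)!))⁻¹ * eisChar χ k z := rfl

theorem eisConst_ne_zero (k : ℕ) : (2 * ((-2 * π * Complex.I) ^ k / (k - 1)!) : ℂ) ≠ 0 := by
  have h1 : (-2 * π * Complex.I : ℂ) ≠ 0 := by
    simp [Real.pi_ne_zero, Complex.I_ne_zero]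
  have h2 : ((k - 1)! : ℂ) ≠ 0 := by exact_mod_cast Nat.factorial_ne_zero _
  exact mul_ne_zero two_ne_zero (div_ne_zero (pow_ne_zero _ h1) h2)

theorem eisCharNorm_hasSum (χ : DirichletCharacter ℂ N) (hχ : χ (-1) = -1) {k : ℕ} (hk : 3 ≤ k)
    (hodd : Odd k) (τ : ℍ) :
    HasSum (fun m : ℕ ↦ sigmaChi χ (k - 1) m • Function.Periodic.qParam (1 : ℝ) τ ^ m) (eisCharNorm χ hk τ) := by
  have hq : Function.Periodic.qParam (1 : ℝ) τ = cexp (2 * π * Complex.I * τ) := by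
    simp [Function.Periodic.qParam]
  rw [hq]
  have hS : Summable fun n : ℕ ↦ sigmaChi χ (k - 1) n * cexp (2 * π * Complex.I * τ) ^ n :=
    summable_sigmaChi_mul_pow χ (k - 1) (norm_exp_two_pi_I_lt_one τ)
  have hval : eisCharNorm χ hk τ =
      ∑' n : ℕ, sigmaChi χ (k - 1) n * cexp (2 * π * Complex.I * τ) ^ n := by
    rw [eisCharNorm_apply, eisChar_eq_tsum χ hχ hk hodd τ, ← mul_assoc,
      inv_mul_cancel₀ (eisConst_ne_zero k), one_mul,
      tsum_pnat_eq_tsum_succ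
        (f := fun n ↦ (∑ d ∈ (n : ℕ).divisors, χ ((d : ℕ) : ZMod N) * ((n / d : ℕ) : ℂ) ^ (k - 1)) *
          cexp (2 * π * Complex.I * τ) ^ n)]
    rw [hS.tsum_eq_zero_add]
    simp [sigmaChi]
  rw [hval]
  simpa [smul_eq_mul] using hS.hasSum

/-- The `q`-expansion coefficients of the normalised Eisenstein series with character. -/
theorem eisCharNorm_qExpansion_coeff (χ : DirichletCharacter ℂ N) (hχ : χ (-1) = -1) {k : ℕ}
    (hk : 3 ≤ k) (hodd : Odd k) (m : ℕ) :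
    (qExpansion 1 (eisCharNorm χ hk)).coeff m = sigmaChi χ (k - 1) m :=
  (ModularFormClass.qExpansion_coeff_unique one_pos (one_mem_strictPeriods_Gamma1 N)
    (eisCharNorm_hasSum χ hχ hk hodd) m).symm

theorem eisCharNorm_ne_zero (χ : DirichletCharacter ℂ N) (hχ : χ (-1) = -1) {k : ℕ}
    (hk : 3 ≤ k) (hodd : Odd k) : eisCharNorm χ hk ≠ 0 := by
  intro h
  have h1 := eisCharNorm_qExpansion_coeff χ hχ hk hodd 1
  rw [h, sigmaChi_one] at h1
  simp [qExpansion_zero] at h1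

end qexp

end Fermat.Agent.S48.H288
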