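import Mathlib
import Fermat.Agent.S23.Cap.Main
import Fermat.Agent.S48.H288.EisChar

/-!
# S48 / P1 (helper288): Galois conjugates of weight one cusp forms with nebentypus

For `g ∈ S_k(Γ₁(N))` with nebentypus `ε` (`g ∣ γ = ε(d) g` on `Γ₀(N)`), `ε(-1) = -1 = (-1)^k`
and any ring endomorphism `σ` of `ℂ` there is a cusp form `g^σ ∈ S_k(Γ₁(N))` with nebentypus
`σ ∘ ε` whose `q`-expansion is `σ` applied to that of `g`.

Route: `V = g · U` with `U = eisCharNorm ε⁻¹` of weight `3` lies in `S_{k+3}(Γ₀(N))`; the landed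
S23 library conjugates `V` (`Cap.galois_stable`); `U^σ = eisCharNorm (σ ∘ ε⁻¹)` explicitly;
`g` is integral over the level one forms (`H503.exists_monic_cusp`), and the converse step
(`Conv.exists_cuspForm_qExpansion_eq`) produces `g^σ = V^σ / U^σ`.
-/

set_option autoImplicit false

open UpperHalfPlane ModularForm ModularFormClass MatrixGroups CongruenceSubgroup
open scoped Manifold

noncomputable section

namespace Fermat.Agent.S48.H288

open Fermat.Agent.S23 Fermat.Agent.S23.Cap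

variable {N : ℕ}

/-- `g` has nebentypus `ε` in weight `k`: `g ∣[k] γ = ε(γ₁₁) g` for `γ ∈ Γ₀(N)`. -/
def HasChar (ε : DirichletCharacter ℂ N) (k : ℤ) (g : ℍ → ℂ) : Prop :=
  ∀ γ : SL(2, ℤ), γ ∈ Gamma0 N → g ∣[k] γ = ε ((γ 1 1 : ℤ) : ZMod N) • g

theorem SL_smul_slash' (k : ℤ) (γ : SL(2, ℤ)) (c : ℂ) (f : ℍ → ℂ) :
    (c • f) ∣[k] γ = c • (f ∣[k] γ) := by
  ext z
  simp only [SL_slash_apply, Pi.smul_apply, smul_eq_mul]
  ring

theorem isUnit_lowerRight_of_mem_Gamma0 {γ : SL(2, ℤ)} (hγ : γ ∈ Gamma0 N) :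
    IsUnit (((γ 1 1 : ℤ)) : ZMod N) := by
  have h : ((γ 1 0 : ℤ) : ZMod N) = 0 := Gamma0_mem.mp hγ
  have hdet : (γ 0 0 * γ 1 1 - γ 0 1 * γ 1 0 : ℤ) = 1 := by
    have := γ.det_coe
    rw [Matrix.det_fin_two] at this
    exact this
  have h2 : ((γ 0 0 : ℤ) : ZMod N) * ((γ 1 1 : ℤ) : ZMod N) = 1 := by
    have := congrArg (Int.cast : ℤ → ZMod N) hdet
    push_cast at this
    rw [h, mul_zero, sub_zero] at this
    exact this
  exact IsUnit.of_mul_eq_one_right _ h2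

variable [NeZero N]

theorem hasChar_eisCharNorm (χ : DirichletCharacter ℂ N) {k : ℕ} (hk : 3 ≤ k) :
    HasChar χ k (eisCharNorm χ hk) := by
  intro γ hγ
  have h1 : ⇑(eisCharNorm χ hk) =
      (2 * ((-2 * Real.pi * Complex.I) ^ k / (Nat.factorial (k - 1) : ℂ)))⁻¹ • eisChar χ k := rfl
  rw [h1, SL_smul_slash', eisChar_slash χ k γ hγ, smul_comm]


theorem Gamma1_map_le_Gamma0_map (N : ℕ) :
    (Gamma1 N).map (Matrix.SpecialLinearGroup.mapGL ℝ) ≤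
      (Gamma0 N).map (Matrix.SpecialLinearGroup.mapGL ℝ) :=
  Subgroup.map_mono (Gamma1_in_Gamma0 N)

/-- Restriction of a cusp form on `Γ₀(N)` to a modular form on `Γ₁(N)`. -/
def restrictGamma1 {k : ℤ} (V : CuspForm ((Gamma0 N).map (Matrix.SpecialLinearGroup.mapGL ℝ)) k) :
    ModularForm ((Gamma1 N).map (Matrix.SpecialLinearGroup.mapGL ℝ)) k where
  toFun := V
  slash_action_eq' := fun γ hγ ↦ V.slash_action_eq' γ (Gamma1_map_le_Gamma0_map N hγ)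
  holo' := V.holo'
  bdd_at_cusps' := fun hc ↦
    ModularFormClass.bdd_at_cusps V (hc.mono (Gamma1_map_le_Gamma0_map N))

omit [NeZero N] in
@[simp] theorem coe_restrictGamma1 {k : ℤ}
    (V : CuspForm ((Gamma0 N).map (Matrix.SpecialLinearGroup.mapGL ℝ)) k) :
    ⇑(restrictGamma1 V) = ⇑V := rfl

/-- The product of a cusp form with nebentypus `ε` and the Eisenstein series with character
`ε⁻¹` of weight `3`, as a cusp form on `Γ₀(N)`. -/
def mulEis (ε : DirichletCharacter ℂ N) {k : ℤ}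
    (g : CuspForm ((Gamma1 N).map (Matrix.SpecialLinearGroup.mapGL ℝ)) k)
    (hg : HasChar ε k g) :
    CuspForm ((Gamma0 N).map (Matrix.SpecialLinearGroup.mapGL ℝ)) (k + 3) where
  toFun := ⇑g * ⇑(eisCharNorm ε⁻¹ (k := 3) le_rfl)
  slash_action_eq' := by
    rintro _ ⟨γ, hγ, rfl⟩
    have h1 := hg γ hγ
    have h2 := hasChar_eisCharNorm ε⁻¹ (k := 3) le_rfl γ hγ
    have h3 : (⇑g * ⇑(eisCharNorm ε⁻¹ (k := 3) le_rfl)) ∣[k + 3] γ =
        (⇑g ∣[k] γ) * (⇑(eisCharNorm ε⁻¹ (k := 3) le_rfl) ∣[(3 : ℤ)] γ) :=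
      mul_slash_SL2 k 3 γ _ _
    have hu := isUnit_lowerRight_of_mem_Gamma0 hγ
    have h4 : ε ((γ 1 1 : ℤ) : ZMod N) * ε⁻¹ ((γ 1 1 : ℤ) : ZMod N) = 1 := by
      rw [← MulChar.mul_apply, mul_inv_cancel, MulChar.one_apply hu]
    change (⇑g * ⇑(eisCharNorm ε⁻¹ (k := 3) le_rfl)) ∣[k + 3] γ = _
    rw [h3, h1]
    have h2' : ⇑(eisCharNorm ε⁻¹ (k := 3) le_rfl) ∣[(3 : ℤ)] γ =
        ε⁻¹ ((γ 1 1 : ℤ) : ZMod N) • ⇑(eisCharNorm ε⁻¹ (k := 3) le_rfl) := h2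
    rw [h2']
    ext z
    simp only [Pi.mul_apply, Pi.smul_apply, smul_eq_mul]
    calc ε ((γ 1 1 : ℤ) : ZMod N) * g z *
          (ε⁻¹ ((γ 1 1 : ℤ) : ZMod N) * (eisCharNorm ε⁻¹ (k := 3) le_rfl) z)
        = (ε ((γ 1 1 : ℤ) : ZMod N) * ε⁻¹ ((γ 1 1 : ℤ) : ZMod N)) *
          (g z * (eisCharNorm ε⁻¹ (k := 3) le_rfl) z) := by ring
      _ = g z * (eisCharNorm ε⁻¹ (k := 3) le_rfl) z := by rw [h4, one_mul]
  holo' := (g.mulModularForm (eisCharNorm ε⁻¹ (k := 3) le_rfl)).holo'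
  zero_at_cusps' := fun {c} hc ↦ by
    have hc' : IsCusp c ((Gamma1 N).map (Matrix.SpecialLinearGroup.mapGL ℝ)) := by
      rw [Subgroup.IsArithmetic.isCusp_iff_isCusp_SL2Z] at hc ⊢
      exact hc
    exact (g.mulModularForm (eisCharNorm ε⁻¹ (k := 3) le_rfl)).zero_at_cusps' hc'

@[simp] theorem coe_mulEis (ε : DirichletCharacter ℂ N) {k : ℤ}
    (g : CuspForm ((Gamma1 N).map (Matrix.SpecialLinearGroup.mapGL ℝ)) k)
    (hg : HasChar ε k g) :
    ⇑(mulEis ε g hg) = ⇑g * ⇑(eisCharNorm ε⁻¹ (k := 3) le_rfl) := rfl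


/-! ### Conjugating the Eisenstein series -/

omit [NeZero N] in
theorem map_sigmaChi (σ : ℂ →+* ℂ) (χ : DirichletCharacter ℂ N) (k n : ℕ) :
    σ (sigmaChi χ k n) = sigmaChi (χ.ringHomComp σ) k n := by
  simp [sigmaChi, map_sum, MulChar.ringHomComp_apply]

omit [NeZero N] in
theorem ringHomComp_neg_one (σ : ℂ →+* ℂ) (χ : DirichletCharacter ℂ N) (hχ : χ (-1) = -1) :
    (χ.ringHomComp σ) (-1) = -1 := by
  rw [MulChar.ringHomComp_apply, hχ, map_neg, map_one]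

omit [NeZero N] in
theorem inv_neg_one (χ : DirichletCharacter ℂ N) (hχ : χ (-1) = -1) : χ⁻¹ (-1) = -1 := by
  have h1 : χ (-1) * χ⁻¹ (-1) = 1 := by
    rw [← MulChar.mul_apply, mul_inv_cancel, MulChar.one_apply isUnit_one.neg]
  rw [hχ] at h1
  linear_combination -h1

omit [NeZero N] in
theorem ringHomComp_inv (σ : ℂ →+* ℂ) (χ : DirichletCharacter ℂ N) :
    (χ⁻¹).ringHomComp σ = (χ.ringHomComp σ)⁻¹ := by
  ext a
  simp [MulChar.ringHomComp_apply, MulChar.inv_apply]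

theorem qExpansion_eisCharNorm_map (σ : ℂ →+* ℂ) (χ : DirichletCharacter ℂ N)
    (hχ : χ (-1) = -1) :
    (qExpansion 1 (eisCharNorm χ (k := 3) le_rfl)).map σ =
      qExpansion 1 (eisCharNorm (χ.ringHomComp σ) (k := 3) le_rfl) := by
  ext n
  rw [PowerSeries.coeff_map, eisCharNorm_qExpansion_coeff χ hχ le_rfl (by decide),
    eisCharNorm_qExpansion_coeff (χ.ringHomComp σ) (ringHomComp_neg_one σ χ hχ) le_rfl (by decide),
    map_sigmaChi]

omit [NeZero N] in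
theorem isNice_Gamma1 {F : Type*} [FunLike F ℍ ℂ] {k : ℤ}
    [ModularFormClass F ((Gamma1 N).map (Matrix.SpecialLinearGroup.mapGL ℝ)) k] (f : F) :
    Conv.IsNice (f : ℍ → ℂ) :=
  Conv.isNice_of_modularFormClass (one_mem_strictPeriods_Gamma1 N) f

theorem isNice_levelOne {k : ℤ} (f : CuspForm 𝒮ℒ k) : Conv.IsNice (f : ℍ → ℂ) :=
  Conv.isNice_of_modularFormClass one_mem_strictPeriods_SL f

theorem eq_of_qExpansion_eq {f g : ℍ → ℂ} (hf : Conv.IsNice f) (hg : Conv.IsNice g)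
    (h : qExpansion 1 f = qExpansion 1 g) : f = g := by
  ext z
  rw [← (hasSum_qExpansion one_pos hf.2.1 hf.1 hf.2.2 z).tsum_eq,
    ← (hasSum_qExpansion one_pos hg.2.1 hg.1 hg.2.2 z).tsum_eq, h]

/-- **Galois conjugation** of a cusp form with odd nebentypus on `Γ₁(N)`, odd weight `1`. -/
theorem exists_conj_of_odd (ε : DirichletCharacter ℂ N) (hodd : ε (-1) = -1) (σ : ℂ →+* ℂ)
    (g : CuspForm ((Gamma1 N).map (Matrix.SpecialLinearGroup.mapGL ℝ)) 1)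
    (hg : HasChar ε 1 g) :
    ∃ g' : CuspForm ((Gamma1 N).map (Matrix.SpecialLinearGroup.mapGL ℝ)) 1,
      HasChar (ε.ringHomComp σ) 1 g' ∧ qExpansion 1 g' = (qExpansion 1 g).map σ := by
  -- the Eisenstein series and its conjugate
  set U := eisCharNorm ε⁻¹ (k := 3) le_rfl with hU
  set U' := eisCharNorm (ε.ringHomComp σ)⁻¹ (k := 3) le_rfl with hU'
  have hUodd : ε⁻¹ (-1) = -1 := inv_neg_one ε hodd
  have hU'odd : (ε.ringHomComp σ)⁻¹ (-1) = -1 :=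
    inv_neg_one _ (ringHomComp_neg_one σ ε hodd)
  have hUU' : (qExpansion 1 U).map σ = qExpansion 1 U' := by
    rw [hU, hU', qExpansion_eisCharNorm_map σ ε⁻¹ hUodd, ringHomComp_inv]
  have hU'ne : U' ≠ 0 := eisCharNorm_ne_zero _ hU'odd le_rfl (by decide)
  -- the product and its conjugate
  obtain ⟨_, ⟨V', rfl⟩, hV'⟩ := galois_stable N (1 + 3) σ (mulEis ε g hg) ⟨mulEis ε g hg, rfl⟩
  have hgN : Conv.IsNice (g : ℍ → ℂ) := isNice_Gamma1 g
  have hUN : Conv.IsNice (U : ℍ → ℂ) := isNice_Gamma1 U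
  have hqV : qExpansion 1 (mulEis ε g hg) = qExpansion 1 g * qExpansion 1 U := by
    rw [coe_mulEis, Conv.IsNice.qExpansion_mul hgN hUN]
  set x : PowerSeries ℂ := (qExpansion 1 g).map σ with hx
  have hxU : x * qExpansion 1 U' = qExpansion 1 (restrictGamma1 V') := by
    rw [coe_restrictGamma1]
    change _ = qx V'
    rw [hV']
    change _ = (qExpansion 1 (mulEis ε g hg)).map σ
    rw [hqV, map_mul, hUU']
  -- the monic relation
  obtain ⟨n, b, hn, hrel⟩ :=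
    H503.exists_monic_cusp (𝒢 := (Gamma1 N).map (Matrix.SpecialLinearGroup.mapGL ℝ)) g
  choose b' hb' using fun m : ℕ ↦ LevelOne.levelOne_transport_cusp_ringHom σ (1 * (m : ℤ)) (b m)
  have hrelq : qExpansion 1 g ^ n +
      ∑ m ∈ Finset.Icc 1 n, qExpansion 1 (b m) * qExpansion 1 g ^ (n - m) = 0 := by
    have hfun : (g : ℍ → ℂ) ^ n + ∑ m ∈ Finset.Icc 1 n, (b m : ℍ → ℂ) * (g : ℍ → ℂ) ^ (n - m) = 0 := by
      funext τ
      simpa using hrel τ
    have hterm : ∀ m ∈ Finset.Icc 1 n, Conv.IsNice ((b m : ℍ → ℂ) * (g : ℍ → ℂ) ^ (n - m)) :=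
      fun m _ ↦ (isNice_levelOne (b m)).mul (hgN.pow _)
    have := congrArg (qExpansion 1) hfun
    rw [Conv.IsNice.qExpansion_add (hgN.pow n) (Conv.IsNice.sum _ hterm),
      hgN.qExpansion_pow, Conv.IsNice.qExpansion_sum _ hterm, qExpansion_zero] at this
    rw [← this]
    congr 1
    refine Finset.sum_congr rfl fun m _ ↦ ?_
    rw [Conv.IsNice.qExpansion_mul (isNice_levelOne (b m)) (hgN.pow _), hgN.qExpansion_pow]
  have hrelσ : x ^ n + ∑ m ∈ Finset.Icc 1 n, qExpansion 1 (b' m) * x ^ (n - m) = 0 := by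
    have := congrArg (PowerSeries.map σ) hrelq
    rw [map_add, map_pow, map_sum, map_zero] at this
    rw [← this]
    congr 1
    refine Finset.sum_congr rfl fun m _ ↦ ?_
    rw [map_mul, map_pow, hb' m]
  have hmonic : x ^ n + ∑ i ∈ Finset.range n, qExpansion 1 (⇑(b' (n - i))) * x ^ i = 0 := by
    rw [← hrelσ]
    congr 1
    refine Finset.sum_nbij' (fun i ↦ n - i) (fun m ↦ n - m) ?_ ?_ ?_ ?_ ?_
    · intro i hi
      have := Finset.mem_range.mp hi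
      exact Finset.mem_Icc.mpr ⟨by omega, by omega⟩
    · intro m hm
      have := Finset.mem_Icc.mp hm
      exact Finset.mem_range.mpr (by omega)
    · intro i hi
      have := Finset.mem_range.mp hi
      show n - (n - i) = i
      omega
    · intro m hm
      have := Finset.mem_Icc.mp hm
      show n - (n - m) = m
      omega
    · intro i hi
      have := Finset.mem_range.mp hi
      have h : n - (n - i) = i := by omega
      rw [h]
  have hB : ∀ i < n, ∃ (wi : ℤ) (B : CuspForm 𝒮ℒ wi), wi = 1 * ((n : ℤ) - i) ∧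
      ⇑B = (fun i ↦ (⇑(b' (n - i)) : ℍ → ℂ)) i := by
    intro i hi
    refine ⟨1 * ((n - i : ℕ) : ℤ), b' (n - i), ?_, rfl⟩
    rw [Nat.cast_sub hi.le]
  obtain ⟨F, hF⟩ := Conv.exists_cuspForm_qExpansion_eq (Γ := Gamma1 N)
    (one_mem_strictPeriods_Gamma1 N) (k := 1) (w := ((3 : ℕ) : ℤ)) (m := 1 + 3) (by norm_num)
    (restrictGamma1 V') U' hU'ne hn (fun i ↦ (⇑(b' (n - i)) : ℍ → ℂ)) hB x hxU hmonic
  refine ⟨F, ?_, hF⟩
  -- the nebentypus of `F`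
  have hFN : Conv.IsNice (F : ℍ → ℂ) := isNice_Gamma1 F
  have hU'N : Conv.IsNice (U' : ℍ → ℂ) := isNice_Gamma1 U'
  have hV'N : Conv.IsNice (V' : ℍ → ℂ) := isNice_Gamma1 (restrictGamma1 V')
  have hFU : (F : ℍ → ℂ) * (U' : ℍ → ℂ) = (V' : ℍ → ℂ) := by
    apply eq_of_qExpansion_eq (hFN.mul hU'N) hV'N
    rw [Conv.IsNice.qExpansion_mul hFN hU'N, hF, hxU, coe_restrictGamma1]
  have hU'fun : ∃ τ, (U' : ℍ → ℂ) τ ≠ 0 := by
    by_contra hcon
    push Not at hcon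
    exact hU'ne (DFunLike.coe_injective (funext hcon))
  intro γ hγ
  have hu := isUnit_lowerRight_of_mem_Gamma0 hγ
  set c : ℂ := (ε.ringHomComp σ) ((γ 1 1 : ℤ) : ZMod N) with hc
  set c' : ℂ := (ε.ringHomComp σ)⁻¹ ((γ 1 1 : ℤ) : ZMod N) with hc'
  have hcc' : c * c' = 1 := by
    rw [hc, hc', ← MulChar.mul_apply, mul_inv_cancel, MulChar.one_apply hu]
  have hU'γ : (U' : ℍ → ℂ) ∣[((3 : ℕ) : ℤ)] γ = c' • (U' : ℍ → ℂ) :=
    hasChar_eisCharNorm (ε.ringHomComp σ)⁻¹ (k := 3) le_rfl γ hγ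
  have hV'γ : (V' : ℍ → ℂ) ∣[(1 + 3 : ℤ)] γ = (V' : ℍ → ℂ) :=
    V'.slash_action_eq' _ ⟨γ, hγ, rfl⟩
  have h1 : ((F : ℍ → ℂ) * (U' : ℍ → ℂ)) ∣[(1 + 3 : ℤ)] γ =
      ((F : ℍ → ℂ) ∣[(1 : ℤ)] γ) * ((U' : ℍ → ℂ) ∣[((3 : ℕ) : ℤ)] γ) :=
    mul_slash_SL2 1 3 γ _ _
  rw [hFU, hV'γ, hU'γ] at h1
  have hD : MDiff ((F : ℍ → ℂ) ∣[(1 : ℤ)] γ - c • (F : ℍ → ℂ)) :=
    (hFN.1.slash 1 (γ : GL (Fin 2) ℝ)).sub (hFN.1.const_smul c)
  have hmul : ∀ τ, ((F : ℍ → ℂ) ∣[(1 : ℤ)] γ - c • (F : ℍ → ℂ)) τ * (U' : ℍ → ℂ) τ = 0 := by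
    intro τ
    have h2 := congrFun h1 τ
    have h3 := congrFun hFU τ
    simp only [Pi.mul_apply, Pi.smul_apply, Pi.sub_apply, smul_eq_mul] at h2 h3 ⊢
    have h4 : ((F : ℍ → ℂ) ∣[(1 : ℤ)] γ) τ * U' τ = c * (c' * (((F : ℍ → ℂ) ∣[(1 : ℤ)] γ) τ * U' τ)) := by
      rw [← mul_assoc, hcc', one_mul]
    rw [sub_mul, h4]
    have h5 : c' * (((F : ℍ → ℂ) ∣[(1 : ℤ)] γ) τ * U' τ) = F τ * U' τ := by
      rw [h3, h2]
      ring
    rw [h5]
    ring
  have h0 := Conv.eq_zero_of_mul_eq_zero_of_mdiff hD hU'N.1 hU'fun hmul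
  funext τ
  have := h0 τ
  simp only [Pi.sub_apply] at this
  exact sub_eq_zero.mp this


omit [NeZero N] in
/-- A form with nebentypus `ε` in weight `1` vanishes unless `ε(-1) = -1`. -/
theorem eq_zero_of_hasChar_of_not_odd (ε : DirichletCharacter ℂ N) (hodd : ε (-1) ≠ -1)
    (g : ℍ → ℂ) (hg : HasChar ε 1 g) : g = 0 := by
  have hmem : (-1 : SL(2, ℤ)) ∈ Gamma0 N := by
    rw [Gamma0_mem]
    simp
  have h1 := hg (-1) hmem
  have h2 : g ∣[(1 : ℤ)] (-1 : SL(2, ℤ)) = -g := by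
    ext z
    rw [SL_slash_apply]
    simp [denom]
  rw [h2] at h1
  have h3 : (((-1 : SL(2, ℤ)) 1 1 : ℤ) : ZMod N) = -1 := by simp
  rw [h3] at h1
  funext z
  have h4 := congrFun h1 z
  simp only [Pi.neg_apply, Pi.smul_apply, smul_eq_mul, Pi.zero_apply] at h4 ⊢
  have h5 : (ε (-1) + 1) * g z = 0 := by linear_combination -h4
  rcases mul_eq_zero.mp h5 with h | h
  · exact absurd (by linear_combination h) hodd
  · exact h

/-- **Galois conjugation (P1-A).** For a weight one cusp form `g` on `Γ₁(N)` with nebentypus `ε`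
and any ring endomorphism `σ` of `ℂ`, there is a weight one cusp form on `Γ₁(N)` with
nebentypus `σ ∘ ε` whose `q`-expansion is the `σ`-conjugate of that of `g`. -/
theorem exists_conj (ε : DirichletCharacter ℂ N) (σ : ℂ →+* ℂ)
    (g : CuspForm ((Gamma1 N).map (Matrix.SpecialLinearGroup.mapGL ℝ)) 1)
    (hg : HasChar ε 1 g) :
    ∃ g' : CuspForm ((Gamma1 N).map (Matrix.SpecialLinearGroup.mapGL ℝ)) 1,
      HasChar (ε.ringHomComp σ) 1 g' ∧ qExpansion 1 g' = (qExpansion 1 g).map σ := by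
  by_cases hodd : ε (-1) = -1
  · exact exists_conj_of_odd ε hodd σ g hg
  · have h0 : (g : ℍ → ℂ) = 0 := eq_zero_of_hasChar_of_not_odd ε hodd g hg
    refine ⟨0, ?_, ?_⟩
    · intro γ _
      ext z
      simp [SL_slash_apply]
    · rw [h0]
      simp [qExpansion_zero]

/-- **P1-A in the shape of S48.** -/
theorem exists_conj_qCoeff (ε : DirichletCharacter ℂ N) (f : CuspForm (Gamma1 N) 1)
    (hε : ∀ γ : SL(2, ℤ), γ ∈ Gamma0 N →
      (⇑f) ∣[(1 : ℤ)] γ = ε ((γ 1 1 : ℤ) : ZMod N) • ⇑f)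
    (σ : ℂ →+* ℂ) :
    ∃ g : CuspForm (Gamma1 N) 1,
      (∀ γ : SL(2, ℤ), γ ∈ Gamma0 N →
        (⇑g) ∣[(1 : ℤ)] γ = (ε.ringHomComp σ) ((γ 1 1 : ℤ) : ZMod N) • ⇑g) ∧
      ∀ n : ℕ, ModularFormClass.qCoeff g n = σ (ModularFormClass.qCoeff f n) := by
  obtain ⟨g, hg, hq⟩ := exists_conj ε σ f hε
  refine ⟨g, hg, fun n ↦ ?_⟩
  unfold ModularFormClass.qCoeff
  rw [hq, PowerSeries.coeff_map]

omit [NeZero N] in
/-- The conjugate satisfies the conjugate Hecke relations. -/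
theorem hecke_relation_conj (ε : DirichletCharacter ℂ N) (σ : ℂ →+* ℂ) (a a' : ℕ → ℂ)
    (ha : ∀ n, a' n = σ (a n))
    (hT : ∀ p : ℕ, p.Prime → ¬ p ∣ N → ∀ n : ℕ,
      a (p * n) + ε (p : ZMod N) * (if p ∣ n then a (n / p) else 0) = a p * a n) :
    ∀ p : ℕ, p.Prime → ¬ p ∣ N → ∀ n : ℕ,
      a' (p * n) + (ε.ringHomComp σ) (p : ZMod N) * (if p ∣ n then a' (n / p) else 0) =
        a' p * a' n := by
  intro p hp hpN n
  have := congrArg σ (hT p hp hpN n)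
  rw [map_add, map_mul, map_mul] at this
  simp only [ha, MulChar.ringHomComp_apply]
  rw [← this]
  congr 2
  split_ifs
  · rfl
  · rw [map_zero]

end Fermat.Agent.S48.H288
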