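import Fermat.Agent.S48.H308.EigenConj
import Fermat.Agent.S48.H288.GaloisConj

/-!
# S48 input P1 (INT) CLOSED: `Top.EigenConjStatement`

* `conjStatement : H308.ConjStatement` — function-level Galois stability of weight one
  eigenforms on `Γ₁(N)` (from `exists_conj_qCoeff` and the nebentypus `H188.nebentypus`);
* `eigenConj : Top.EigenConjStatement` — via helper308's assembly `H308.eigenConj_of_conj`.
-/

set_option autoImplicit false

open CongruenceSubgroup
open scoped MatrixGroups

namespace Fermat.Agent.S48.H288

/-- Function-level Galois stability of weight one eigenforms. -/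
theorem conjStatement : Fermat.Agent.S48.H308.ConjStatement := by
  intro N _ ε f hf σ
  obtain ⟨g, -, hg⟩ := exists_conj_qCoeff ε f
    (fun γ hγ ↦ Fermat.Agent.S48.H188.nebentypus ε f hf.2 hγ) σ
  exact ⟨g, hg⟩

/-- **P1 (INT).** The eigenvalues `a_p` (`p ∤ N`) are algebraic integers of a number field, and
all conjugate systems are systems of eigenvalues of weight one eigenforms of the same level. -/
theorem eigenConj : Fermat.Agent.S48.Top.EigenConjStatement :=
  Fermat.Agent.S48.H308.eigenConj_of_conj conjStatement

end Fermat.Agent.S48.H288
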